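import Fermat.Agent.EC.Rep.Local.Flat
import Fermat.Agent.CFT.Tangent.BaseChange
import Mathlib.RingTheory.Filtration
import Mathlib.RingTheory.HopfAlgebra.Convolution
import Mathlib.LinearAlgebra.TensorProduct.Finiteness

/-!
# Flatness descends along finite injective maps of coefficient rings
-/

set_option autoImplicit false

noncomputable section

open IsLocalRing Module WithConv
open scoped TensorProduct

namespace Fermat.Agent.RT.Glue

open FiniteFlat (GalOrder Zl)
open Arith (GQ QBar)

section Order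

variable {l : ℕ} {M : Type} [AddCommGroup M] [DistribMulAction GQ M]
  {H : Type} [CommRing H] [HopfAlgebra (Zl l) H] [Module.Finite (Zl l) H]
  (e : WithConv (H →ₐ[Zl l] QBar) ≃ M)

/-- The functions on the points given by a Hopf algebra. -/
def pointFn : H →ₐ[Zl l] (M → QBar) :=
  AlgHom.pi fun m => (e.symm m).ofConv

omit [AddCommGroup M] [DistribMulAction GQ M] [Module.Finite (Zl l) H] in
theorem pointFn_apply (h : H) (m : M) : pointFn e h m = (e.symm m).ofConv h := rfl

/-- A Galois order from a Hopf algebra with the given points. -/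
theorem nonempty_galOrder_of_hopf (he : ∀ f g, e (f * g) = e f + e g)
    (hσ : ∀ (σ : GQ) (f g : WithConv (H →ₐ[Zl l] QBar)), (∀ h : H, g h = σ (f h)) →
      e g = σ • e f) : Nonempty (GalOrder l M) := by
  classical
  have hmul : ∀ x y : M, e.symm (x + y) = e.symm x * e.symm y := fun x y =>
    e.injective (by rw [e.apply_symm_apply, he, e.apply_symm_apply, e.apply_symm_apply])
  have hone : e 1 = 0 := by
    have h := he 1 1
    rw [one_mul] at h
    simpa using h
  refine ⟨⟨(pointFn e).range, ?_, ?_, fun m m' hm => ?_, ?_, ?_⟩⟩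
  · rintro _ ⟨h, rfl⟩ σ m
    let g : WithConv (H →ₐ[Zl l] QBar) :=
      toConv ((σ.toAlgHom.restrictScalars (Zl l)).comp (e.symm m).ofConv)
    have hg : e g = σ • m := by rw [hσ σ (e.symm m) g fun h => rfl, e.apply_symm_apply]
    show pointFn e h (σ • m) = σ (pointFn e h m)
    rw [pointFn_apply, ← hg, e.symm_apply_apply]
    rfl
  · exact Module.Finite.of_surjective (pointFn e).rangeRestrict.toLinearMap
      (pointFn e).rangeRestrict_surjective
  · exact e.symm.injective (WithConv.ofConv_injective (AlgHom.ext fun h => hm _ ⟨h, rfl⟩))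
  · rintro _ ⟨h, rfl⟩
    obtain ⟨s, hs⟩ := TensorProduct.exists_finset (Coalgebra.comul (R := Zl l) h)
    let E := s.equivFin
    refine ⟨s.card, fun i => pointFn e (E.symm i).1.1, fun i => pointFn e (E.symm i).1.2,
      fun i => ⟨_, rfl⟩, fun i => ⟨_, rfl⟩, fun x y => ?_⟩
    show pointFn e h (x + y) = _
    rw [pointFn_apply, hmul]
    refine (AlgHom.convMul_apply _ _ h).trans ?_
    rw [hs, map_sum, ← Finset.sum_coe_sort]
    exact (Fintype.sum_equiv E _ _ fun i => by simp [pointFn_apply])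
  · rintro _ ⟨h, rfl⟩
    refine ⟨HopfAlgebra.antipodeAlgHom (Zl l) H h, funext fun x => ?_⟩
    let g : WithConv (H →ₐ[Zl l] QBar) :=
      toConv ((e.symm x).ofConv.comp (HopfAlgebra.antipodeAlgHom (Zl l) H))
    have hg : g * e.symm x = 1 := by
      refine WithConv.ofConv_injective (AlgHom.ext fun a => ?_)
      refine (AlgHom.convMul_apply _ _ a).trans ?_
      obtain ⟨s, hs⟩ := TensorProduct.exists_finset (Coalgebra.comul (R := Zl l) a)
      have h1 := congrArg (e.symm x).ofConv
        (HopfAlgebra.mul_antipode_rTensor_comul_apply (R := Zl l) a)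
      rw [hs, map_sum, map_sum, map_sum] at h1
      rw [hs, map_sum, AlgHom.convOne_apply]
      refine Eq.trans (Finset.sum_congr rfl fun i _ => ?_) (h1.trans ((e.symm x).ofConv.commutes _))
      simp [g]
    have hneg : e g = -x := by
      have h1 := he g (e.symm x)
      rw [hg, hone, e.apply_symm_apply] at h1
      exact eq_neg_of_add_eq_zero_left h1.symm
    show pointFn e _ x = pointFn e h (-x)
    rw [pointFn_apply, pointFn_apply, ← hneg, e.symm_apply_apply]
    rfl

end Order

variable {R R' : Type} [CommRing R] [IsLocalRing R] [IsNoetherianRing R]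
  [CommRing R'] [IsLocalRing R'] {p : ℕ}

/-- Flatness descends along a finite injective local homomorphism. -/
theorem isFlatAt_of_baseChange (φ : R →+* R') (hφ : IsLocalHom φ) (hinj : Function.Injective φ)
    (hfin : φ.Finite) (ρ : GaloisRepAdic R) (h : (ρ.baseChangeAlong φ hφ).IsFlatAt p) :
    ρ.IsFlatAt p := by
  classical
  let : Algebra R R' := φ.toAlgebra
  have : IsLocalHom (algebraMap R R') := hφ
  have : Module.Finite R R' := hfin
  have hres : Finite (ResidueField R) :=
    haveI := h.1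
    Finite.of_injective _ (ResidueField.map φ).injective
  refine EC.Rep.isFlatAt_of_galOrder ρ p hres fun I hI => ?_
  obtain ⟨k, hk⟩ := IsLocalRing.exists_maximalIdeal_pow_le_of_isArtinianRing_quotient I
  obtain ⟨c, hc⟩ := Ideal.exists_pow_inf_eq_pow_smul (maximalIdeal R)
    (LinearMap.range (Algebra.linearMap R R'))
  set n := k + c
  set J : Ideal R' := (maximalIdeal R ^ n).map φ
  have hJ : J.comap φ ≤ I := by
    intro a ha
    refine hk ?_
    have h1 : φ a ∈ maximalIdeal R ^ n • (⊤ : Submodule R R') ⊓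
        LinearMap.range (Algebra.linearMap R R') := by
      refine ⟨?_, ⟨a, rfl⟩⟩
      rw [Ideal.smul_top_eq_map]
      exact ha
    rw [hc n (Nat.le_add_left c k), show n - c = k from Nat.add_sub_cancel k c] at h1
    have h2 := Submodule.smul_mono le_rfl inf_le_right h1
    rw [LinearMap.range_eq_map, ← Submodule.map_smul''] at h2
    obtain ⟨b, hb, hba⟩ := h2
    rw [smul_eq_mul, Ideal.mul_top] at hb
    exact hinj hba ▸ hb
  have hfinJ : Finite (R' ⧸ J) := by
    have : Finite (R ⧸ maximalIdeal R) := hres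
    have : Finite (R ⧸ maximalIdeal R ^ n) :=
      Ideal.finite_quotient_pow (IsNoetherian.noetherian (maximalIdeal R)) _
    obtain ⟨r, t, ht⟩ := Submodule.fg_iff_exists_fin_generating_family.mp
      (Module.Finite.fg_top (R := R) (M := R'))
    refine Finite.of_surjective
      (fun x : Fin r → R ⧸ maximalIdeal R ^ n =>
        Ideal.Quotient.mk J (∑ i, φ (Quotient.out (x i)) * t i)) fun y => ?_
    obtain ⟨y, rfl⟩ := Ideal.Quotient.mk_surjective y
    have hy : y ∈ Submodule.span R (Set.range t) := by rw [ht]; trivial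
    obtain ⟨a, ha⟩ := Submodule.mem_span_range_iff_exists_fun R |>.1 hy
    refine ⟨fun i => Ideal.Quotient.mk _ (a i), ?_⟩
    rw [Ideal.Quotient.eq, ← ha, ← Finset.sum_sub_distrib]
    refine J.sum_mem fun i _ => ?_
    rw [Algebra.smul_def, ← sub_mul]
    refine J.mul_mem_right _ ?_
    show φ _ - φ _ ∈ J
    rw [← map_sub]
    refine Ideal.mem_map_of_mem φ (Ideal.Quotient.eq.1 ?_)
    exact Quotient.out_eq _
  obtain ⟨H, _, _, _, _, _, e, he, heσ⟩ := h.2 J hfinJ
  let ρ' := ρ.baseChangeAlong φ hφ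
  let : DistribMulAction GQ (ρ'.V ⧸ (J • (⊤ : Submodule R' ρ'.V))) :=
    EC.Rep.levelDistribMulAction ρ' J
  obtain ⟨O'⟩ := nonempty_galOrder_of_hopf e he heσ
  let : DistribMulAction GQ (ρ.V ⧸ (J.comap φ • (⊤ : Submodule R ρ.V))) :=
    EC.Rep.levelDistribMulAction ρ (J.comap φ)
  let b := Module.finBasisOfFinrankEq R ρ.V ρ.finrank_eq
  let b' : Basis (Fin 2) R' (R' ⊗[R] ρ.V) := b.baseChange R'
  let f : ρ.V →+ (R' ⊗[R] ρ.V) ⧸ (J • (⊤ : Submodule R' (R' ⊗[R] ρ.V))) :=
    (J • (⊤ : Submodule R' (R' ⊗[R] ρ.V))).mkQ.toAddMonoidHom.comp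
      ((TensorProduct.mk R R' ρ.V 1).toAddMonoidHom)
  have hker : ∀ v, f v = 0 ↔ v ∈ J.comap φ • (⊤ : Submodule R ρ.V) := fun v => by
    refine (Submodule.Quotient.mk_eq_zero _).trans ?_
    rw [CFT.Tangent.mem_ideal_smul_top_iff_repr b', CFT.Tangent.mem_ideal_smul_top_iff_repr b]
    refine forall_congr' fun i => ?_
    show b'.repr ((1 : R') ⊗ₜ[R] v) i ∈ J ↔ _
    rw [Basis.baseChange_repr_tmul, Ideal.mem_comap, Algebra.smul_def, mul_one]
    rfl
  let g : ρ.V ⧸ (J.comap φ • (⊤ : Submodule R ρ.V)) →+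
      ρ'.V ⧸ (J • (⊤ : Submodule R' ρ'.V)) :=
    QuotientAddGroup.lift (J.comap φ • (⊤ : Submodule R ρ.V)).toAddSubgroup f
      fun v hv => (hker v).mpr hv
  have hginj : Function.Injective g := by
    refine (injective_iff_map_eq_zero g).mpr fun y hy => ?_
    obtain ⟨v, rfl⟩ := Submodule.Quotient.mk_surjective _ y
    exact (Submodule.Quotient.mk_eq_zero _).mpr ((hker v).1 hy)
  have hgσ : ∀ (σ : GQ) y, g (σ • y) = σ • g y := fun σ y => by
    obtain ⟨v, rfl⟩ := Submodule.Quotient.mk_surjective _ y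
    show Submodule.Quotient.mk ((1 : R') ⊗ₜ[R] ρ.ρ σ v) =
      Submodule.Quotient.mk ((ρ.ρ σ).baseChange R' ((1 : R') ⊗ₜ[R] v))
    rw [LinearMap.baseChange_tmul]
  have : Finite (ρ'.V ⧸ (J • (⊤ : Submodule R' ρ'.V))) := Module.finite_of_finite (R' ⧸ J)
  have hle : J.comap φ • (⊤ : Submodule R ρ.V) ≤ I • (⊤ : Submodule R ρ.V) :=
    Submodule.smul_mono_left hJ
  let π := Submodule.factor hle
  refine ⟨ρ.V ⧸ (J.comap φ • (⊤ : Submodule R ρ.V)), inferInstance, inferInstance,
    Finite.of_injective g hginj,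
    O'.restrict g hginj hgσ, π.toAddMonoidHom, Submodule.factor_surjective hle, fun σ y => ?_⟩
  obtain ⟨v, rfl⟩ := Submodule.Quotient.mk_surjective _ y
  rfl

end Fermat.Agent.RT.Glue
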