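import Fermat.Agent.RT.GammaH.Twist
import Fermat.Agent.RT.GammaH.NebHecke
import Fermat.Agent.RT.GammaH.Semisimple

/-!
# The partial twist away from one prime
-/

set_option autoImplicit false

noncomputable section

open CongruenceSubgroup UpperHalfPlane ModularFormClass
open scoped MatrixGroups ModularForm

namespace Fermat.Agent.RT.Glue

open GammaH (IsNeb HasCoeff badPrimes etaComp etaLift etaSeq seqOp nebWeight)

variable {L : ℕ} [NeZero L] {χ : DirichletCharacter ℂ L} {e v : ℕ}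

/-- The twisting sequence away from `v`. -/
def awaySeq (χ : DirichletCharacter ℂ L) (e v n : ℕ) : ℂ :=
  ∏ w ∈ (badPrimes χ).erase v, etaComp χ e w (n : ZMod w)

theorem mul_awaySeq (hv : v ∈ badPrimes χ) (n : ℕ) :
    etaComp χ e v (n : ZMod v) * awaySeq χ e v n = etaSeq χ e n :=
  Finset.mul_prod_erase _ (fun w => etaComp χ e w (n : ZMod w)) hv

theorem awaySeq_mul (m n : ℕ) :
    awaySeq χ e v (m * n) = awaySeq χ e v m * awaySeq χ e v n := by
  rw [awaySeq, awaySeq, awaySeq, ← Finset.prod_mul_distrib]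
  exact Finset.prod_congr rfl fun w _ => by rw [Nat.cast_mul, map_mul]

/-- An eigenform of nebentypus `χ` twisted at all its primes except `v` has nebentypus the inverse
square of the component at `v`. -/
theorem exists_partial_twist (hL : Squarefree L) (he : χ ^ (2 * e + 1) = 1) (hv : v ∈ badPrimes χ)
    {f : ℍ → ℂ} {a : ℕ → ℂ} (hf : IsNeb L χ f) (ha : HasCoeff f a) (ha1 : a 1 = 1) {S : Finset ℕ}
    (hS : ∀ q : ℕ, q.Prime → q ∣ L → q ∈ S)
    (hrec : ∀ ℓ : ℕ, ℓ.Prime → ℓ ∉ S → ∀ n, seqOp (nebWeight χ) ℓ a n = a ℓ * a n) :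
    ∃ F : ℍ → ℂ, F ≠ 0 ∧ IsNeb (v * (L / v) ^ 2) ((etaComp χ e v)⁻¹ ^ 2) F ∧
      HasCoeff F (fun n => awaySeq χ e v n * a n) ∧
      ∀ ℓ : ℕ, ℓ.Prime → ℓ ∉ S → ∀ n,
        seqOp (nebWeight ((etaComp χ e v)⁻¹ ^ 2)) ℓ (fun n => awaySeq χ e v n * a n) n =
          (etaComp χ e v)⁻¹ (ℓ : ZMod v) * (χ (ℓ : ZMod L) ^ e * a ℓ) *
            (awaySeq χ e v n * a n) := by
  classical
  obtain ⟨hvp, hvL, -, -⟩ := GammaH.mem_badPrimes.1 hv
  set et := etaComp χ e v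
  set s := (badPrimes χ).erase v
  obtain ⟨F, hF, hFa, hF0⟩ :=
    GammaH.exists_twist_set hL he (s := s) (Finset.erase_subset _ _) hf ha
  have hprod : ∏ w ∈ s, w ∣ L / v := by
    have h1 : v * ∏ w ∈ s, w ∣ L := by
      rw [show v * ∏ w ∈ s, w = ∏ w ∈ badPrimes χ, w from
        Finset.mul_prod_erase _ (fun w : ℕ => w) hv]
      exact GammaH.prod_badPrimes_dvd
    exact (Nat.dvd_div_iff_mul_dvd hvL).2 h1
  have hdvd : L * ∏ w ∈ s, w ∣ v * (L / v) ^ 2 := by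
    rw [pow_two, ← mul_assoc, Nat.mul_div_cancel' hvL]
    exact Nat.mul_dvd_mul_left L hprod
  have hF' := hF.of_dvd hdvd
  refine ⟨F, fun h => ?_, ⟨hF'.cusp, fun γ hγ => ?_⟩, hFa, fun ℓ hℓ hℓS n => ?_⟩
  · exact one_ne_zero (ha1.symm.trans ((hf.eq_zero_iff dvd_rfl ha).1 (hF0 h) 1))
  · rw [hF'.neb γ hγ]
    congr 1
    have hγL : γ ∈ Gamma0 L := Newforms.mem_gamma0_iff_dvd.2 ((Int.natCast_dvd_natCast.2
      ((dvd_mul_right L _).trans hdvd)).trans (Newforms.mem_gamma0_iff_dvd.1 hγ))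
    have hu : IsUnit ((γ 1 1 : ℤ) : ZMod L) := DeligneSerre.isUnit_lowerRight hγL
    have hlift : etaLift χ e v ((γ 1 1 : ℤ) : ZMod L) = et ((γ 1 1 : ℤ) : ZMod v) := by
      rw [etaLift, dif_pos hvL, ← hu.unit_spec, DirichletCharacter.changeLevel_eq_cast_of_dvd,
        hu.unit_spec, ZMod.cast_intCast hvL]
    rw [MulChar.pow_apply' _ two_ne_zero, MulChar.inv_apply_eq_inv', inv_pow]
    refine eq_inv_of_mul_eq_one_left ?_
    have hprod' : etaLift χ e v * ∏ w ∈ s, etaLift χ e w = χ ^ e :=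
      (Finset.mul_prod_erase _ _ hv).trans (GammaH.prod_etaLift_eq_pow hL)
    rw [← hlift, ← MulChar.pow_apply' _ (two_ne_zero), ← MulChar.mul_apply]
    have : χ * (∏ w ∈ s, etaLift χ e w) ^ 2 * etaLift χ e v ^ 2 = 1 := by
      rw [mul_assoc, ← mul_pow, mul_comm (∏ w ∈ s, etaLift χ e w), hprod', ← pow_mul,
        mul_comm e, ← pow_succ', he]
    rw [this, MulChar.one_apply hu]
  · have hℓL : ¬ ℓ ∣ L := fun h => hℓS (hS ℓ hℓ h)
    have hlink : et (ℓ : ZMod v) * awaySeq χ e v ℓ = χ (ℓ : ZMod L) ^ e := by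
      rw [mul_awaySeq hv, GammaH.etaSeq_eq hL (ZMod.coe_unitOfCoprime ℓ
        (hℓ.coprime_iff_not_dvd.2 hℓL)), ZMod.coe_unitOfCoprime]
    have hsq : awaySeq χ e v ℓ ^ 2 * χ (ℓ : ZMod L) * et (ℓ : ZMod v) ^ 2 = 1 := by
      have h := GammaH.etaSeq_sq_mul hL he hℓ hℓL
      rw [← mul_awaySeq hv] at h
      linear_combination h
    have het0 : et (ℓ : ZMod v) ≠ 0 := fun h => by simp [h] at hsq
    have hw : nebWeight (et⁻¹ ^ 2) ℓ = awaySeq χ e v ℓ ^ 2 * χ (ℓ : ZMod L) * ℓ := by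
      rw [nebWeight, MulChar.pow_apply' _ two_ne_zero, MulChar.inv_apply_eq_inv', inv_pow,
        ← eq_inv_of_mul_eq_one_left hsq]
    have hb : et⁻¹ (ℓ : ZMod v) * (χ (ℓ : ZMod L) ^ e * a ℓ) = awaySeq χ e v ℓ * a ℓ := by
      rw [MulChar.inv_apply_eq_inv', ← hlink]
      field_simp
    rw [hb]
    have h := hrec ℓ hℓ hℓS n
    simp only [seqOp, hw]
    simp only [seqOp, nebWeight] at h
    split_ifs at h ⊢ with hn
    · obtain ⟨m, rfl⟩ := hn
      rw [Nat.mul_div_cancel_left _ hℓ.pos] at h ⊢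
      rw [awaySeq_mul (ℓ * m), awaySeq_mul ℓ m]
      linear_combination (awaySeq χ e v ℓ ^ 2 * awaySeq χ e v m) * h
    · rw [awaySeq_mul]
      linear_combination (awaySeq χ e v n * awaySeq χ e v ℓ) * h

end Fermat.Agent.RT.Glue
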