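import Fermat.Agent.RT.Glue.Main
import Fermat.Agent.RT.Glue.Transfer
import Fermat.Agent.RT.Glue.Twist
import Fermat.Agent.RT.InertiaTW.Statement

/-!
# Inertia at the auxiliary primes from the theorem on twisted newforms
-/

set_option autoImplicit false

noncomputable section

open IsLocalRing Polynomial CongruenceSubgroup ModularFormClass
open scoped MatrixGroups ModularForm

namespace Fermat.Agent.RT.Glue

open GaloisReps (AbsGal HeckeGaloisModel)

variable {O : Type} [CommRing O] [IsDomain O] [IsDiscreteValuationRing O]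
  {p : ℕ} [Fact p.Prime]
  {L : ℕ} {Δ : Type} [CommGroup Δ] {ψ : (ZMod L)ˣ →* Δ} {S : Finset ℕ}
  {abar : ℕ → ResidueField O}

/-- Every point comes from a normalised eigenform of nebentypus `θ ∘ dia ∘ ψ`. -/
theorem exists_eigenform (H : HeckeModule L ψ S abar) (θ : H.algebra →+* ℂ) :
    ∃ f : CuspForm (Gamma1 L) 2, qCoeff f 1 = 1 ∧
    (∀ (γ : Gamma0 L) (u : (ZMod L)ˣ), Gamma0Map L γ = (u : ZMod L) →
      (⇑f) ∣[(2 : ℤ)] (γ : Matrix.SpecialLinearGroup (Fin 2) ℤ) = θ (diaA H (ψ u)) • ⇑f) ∧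
    (∀ (ℓ : ℕ) (hℓ : ℓ.Prime) (hℓS : ℓ ∉ S), qCoeff f ℓ = θ (TA H hℓ hℓS)) ∧
    ∀ (ℓ : ℕ), ℓ.Prime → ℓ ∉ S → ∀ (u : (ZMod L)ˣ), (u : ZMod L) = ℓ → ∀ n : ℕ,
      qCoeff f (n * ℓ) + (if ℓ ∣ n then θ (diaA H (ψ u)) * ℓ * qCoeff f (n / ℓ) else 0) =
        qCoeff f ℓ * qCoeff f n := by
  obtain ⟨_, _, _, _, _, _, _, f, hf1, hfneb, hfT, hfrec⟩ := H.eigen θ
  exact ⟨f, hf1, hfneb, hfT, hfrec⟩

/-- The nebentypus attached to a point. -/
def nebChar {H : HeckeModule L ψ S abar} (θ : H.algebra →+* ℂ) : DirichletCharacter ℂ L :=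
  MulChar.ofUnitHom (((θ : H.algebra →* ℂ).comp (diaA H)).toHomUnits.comp ψ)

theorem nebChar_coe {H : HeckeModule L ψ S abar} (θ : H.algebra →+* ℂ) (u : (ZMod L)ˣ) :
    nebChar θ (u : ZMod L) = θ (diaA H (ψ u)) := by
  rw [nebChar, MulChar.ofUnitHom_coe]
  rfl

theorem two_mul_halfInvExp_add_one (hp2 : p ≠ 2) [Finite Δ] (hΔ : IsPGroup p Δ) :
    2 * halfInvExp Δ + 1 = Nat.card Δ := by
  obtain ⟨n, hn⟩ := hΔ.exists_card_eq
  obtain ⟨k, hk⟩ := ((Fact.out : p.Prime).odd_of_ne_two hp2).pow (n := n)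
  rw [halfInvExp, hn, hk]
  omega

variable [IsAdicComplete (maximalIdeal O) O] [Finite (ResidueField O)] [CharZero O]
  [NeZero L] [Finite Δ] {H : HeckeModule L ψ S abar} [IsLocalRing H.algebra]
  {hS : ∀ q : ℕ, q.Prime → q ∣ L → q ∈ S}
  {D : ∀ (M : ℕ) [NeZero M], HeckeGaloisModel M p}
  {pt : ∀ θ : H.algebra →ₐ[O] KBar O, Point (p := p) H hS θ.toRingHom} (G : Glued D pt)

set_option maxHeartbeats 1600000 in
/-- The hypothesis of `Glued.charpoly_inertia`. -/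
theorem Glued.twistedInertia [IsLocalHom (algebraMap O H.algebra)]
    (hp : (p : O) ∈ maximalIdeal O) (hΔ : IsPGroup p Δ) (hp2 : p ≠ 2) (hpS : p ∈ S)
    (hL : Squarefree L) {v : ℕ} [Fact v.Prime] (hvL : v ∣ L) (hvp : v ≠ p)
    (hE : ∀ (R M : ℕ) [NeZero R] [NeZero M] (g : CuspForm (Gamma0 M) 2),
      InertiaTW.TraceInertia p v R M g)
    (hES : haveI : NeZero (v ^ 2 * (L / v) ^ 2) :=
        ⟨by rw [← mul_pow, Nat.mul_div_cancel' hvL]; exact pow_ne_zero 2 (NeZero.ne L)⟩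
      GaloisReps.CongruenceProperty (v ^ 2 * (L / v) ^ 2) p)
    (hU : ∀ (M : ℕ) [NeZero M], M ∣ L ^ 2 → v ∣ M → ¬ v ^ 2 ∣ M →
      NewformLocal.UnipotentAt (D M) v)
    {ρbar : ResidualGaloisRep (ResidueField O)}
    (hG : G.rep.residual.IsEquiv
      (ρbar.baseChangeAlong (ResidueField.map (algebraMap O H.algebra))))
    (hbarv : ∀ A : ValuationSubring (AlgebraicClosure ℚ), A.LiesOverPrime v →
      ∀ σ ∈ A.inertiaSubgroupIn ℚ, LinearMap.trace (ResidueField O) ρbar.V (ρbar.ρ σ) = 2) :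
    TwistedInertia D pt v := by
  have hv : v.Prime := Fact.out
  intro A hA σ hσ a ha u hu hua θ
  set P := pt θ
  set θc : H.algebra →+* ℂ := P.emb.toRingHom.comp θ.toRingHom
  set e := halfInvExp Δ
  set χ := nebChar θc
  have he : χ ^ (2 * e + 1) = 1 := by
    refine MulChar.ext fun w => ?_
    rw [MulChar.pow_apply_coe, MulChar.one_apply_coe, nebChar_coe, ← map_pow, ← map_pow,
      two_mul_halfInvExp_add_one hp2 hΔ, pow_card_eq_one', map_one, map_one]
  by_cases hv' : v ∈ GammaH.badPrimes χ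
  · obtain ⟨f₀, hf1, hfneb, hfT, hfrec⟩ := exists_eigenform H θc
    have hneb : GammaH.IsNeb L χ f₀ := by
      refine ⟨⟨CuspFormClass.holo f₀, fun γ => OnePoint.isZeroAt_infty_iff.1 <|
        P2MW.S_CuspFormClass_isZeroAt_heckeT.ModularForm.S06W2.isZeroAt_slash_ratCast f₀ γ
          Fact.out⟩, fun γ hγ => ?_⟩
      have hu' : IsUnit ((γ 1 1 : ℤ) : ZMod L) := DeligneSerre.isUnit_lowerRight hγ
      rw [← hu'.unit_spec, nebChar_coe]
      exact hfneb ⟨γ, hγ⟩ hu'.unit hu'.unit_spec.symm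
    have hrec : ∀ ℓ : ℕ, ℓ.Prime → ℓ ∉ S → ∀ n,
        GammaH.seqOp (GammaH.nebWeight χ) ℓ (qCoeff f₀) n = qCoeff f₀ ℓ * qCoeff f₀ n :=
      fun ℓ hℓ hℓS n => by
        have hw := ZMod.coe_unitOfCoprime ℓ (coprime_of_notMem hS hℓ hℓS)
        rw [GammaH.seqOp, GammaH.nebWeight, ← hw, nebChar_coe]
        exact hfrec ℓ hℓ hℓS _ hw n
    obtain ⟨F, hF0, hFneb, hFa, hFrec⟩ := exists_partial_twist hL he hv' hneb
      (hneb.hasCoeff dvd_rfl) hf1 hS hrec
    have : NeZero ((L / v) ^ 2) := ⟨pow_ne_zero _ (Nat.div_ne_zero_iff_of_dvd hvL |>.2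
      ⟨NeZero.ne L, hv.ne_zero⟩)⟩
    set et := GammaH.etaComp χ e v
    have het1 : et ≠ 1 := GammaH.etaComp_ne_one hL he hv'
    have hord : ∃ k : ℕ, et ^ p ^ k = 1 := by
      obtain ⟨k, hk⟩ := hΔ.exists_card_eq
      refine ⟨k, MulChar.ext fun w => ?_⟩
      obtain ⟨z, hz1, hz2⟩ : ∃ z : (ZMod L)ˣ,
          ZMod.unitsMap (Nat.div_dvd_of_dvd hvL) z = 1 ∧ (z : ZMod L).cast = (w : ZMod v) := by
        have hcop : v.Coprime (L / v) :=
          hv.coprime_iff_not_dvd.2 (GammaH.coprime_div_of_squarefree hL hv hvL)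
        obtain ⟨x, hx1, hx2⟩ := Nat.chineseRemainder hcop (w : ZMod v).val 1
        have hx : x.Coprime L := by
          rw [← Nat.mul_div_cancel' hvL]
          refine Nat.Coprime.mul_right ?_ ?_
          · rw [← ZMod.isUnit_iff_coprime, (ZMod.natCast_eq_natCast_iff _ _ _).2 hx1,
              ZMod.natCast_zmod_val]
            exact w.isUnit
          · rw [← ZMod.isUnit_iff_coprime, (ZMod.natCast_eq_natCast_iff _ _ _).2 hx2, Nat.cast_one]
            exact isUnit_one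
        refine ⟨ZMod.unitOfCoprime x hx, ?_, ?_⟩
        · rw [GammaH.unitsMap_eq_one_iff, ZMod.coe_unitOfCoprime,
            ZMod.cast_natCast (Nat.div_dvd_of_dvd hvL),
            (ZMod.natCast_eq_natCast_iff _ _ _).2 hx2, Nat.cast_one]
        · rw [ZMod.coe_unitOfCoprime, ZMod.cast_natCast hvL,
            (ZMod.natCast_eq_natCast_iff _ _ _).2 hx1, ZMod.natCast_zmod_val]
      rw [MulChar.pow_apply_coe, MulChar.one_apply_coe, ← hz2,
        GammaH.etaComp_spec hL hv hvL z hz1, ← hk, nebChar_coe, ← pow_mul,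
        mul_comm e, pow_mul, ← map_pow θc, ← map_pow (diaA H), pow_card_eq_one', map_one, map_one,
        one_pow]
    have hker : ∀ σ' ∈ A.inertiaSubgroupIn ℚ,
        LinearMap.det ((P.adicRep (D := D)).ρ σ') = 1 ∧
          (P.adicRep (D := D)).trace σ' - 2 ∈ maximalIdeal P.R := fun σ' hσ' => by
      refine ⟨?_, G.trace_sub_two_mem hp hΔ hG θ (hbarv A hA σ' hσ')⟩
      show LinearMap.det ((D P.M).eigenAction P.ι P.θ' σ') = 1
      rw [(D P.M).det_eigenAction_of_roots _ _ P.p_mem (q := 1) fun n ζ hζ => by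
        rw [pow_one]
        exact Arith.inertia_root hA hv hσ' hζ fun h =>
          hvp ((Nat.prime_dvd_prime_iff_eq hv Fact.out).1 (hv.dvd_of_dvd_pow h)), Nat.cast_one]
    let a' : (ZMod v)ˣ := Units.map (ZMod.castHom hvL (ZMod v)).toMonoidHom u
    have ha' : ∀ μ : AlgebraicClosure ℚ, μ ^ v = 1 → σ μ = μ ^ (a' : ZMod v).val := by
      intro μ hμ
      have e1 : (a' : ZMod v).val = a % v := by
        rw [show (a' : ZMod v) = (a : ZMod v) from hua, ZMod.val_natCast]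
      rw [ha μ hμ, e1, ← pow_eq_pow_mod a hμ]
    have hg : ∀ (ℓ : ℕ) (hℓ : ℓ.Prime) (hℓS : ℓ ∉ S),
        qCoeff P.g ℓ = χ (ℓ : ZMod L) ^ e * qCoeff f₀ ℓ := fun ℓ hℓ hℓS => by
      have hcop := coprime_of_notMem hS hℓ hℓS
      have h := P.emb_θ' (HeckeDuality.heckeOp P.M 2 ℓ hℓ)
      rw [P.value hℓ hℓS, HeckeDuality.heckeOp, dif_neg (fun hd => hℓS (hS ℓ hℓ
        (hℓ.dvd_of_dvd_pow (hd.trans P.dvd)))), ConductorLevel.eigenChar_T] at h
      rw [← h, hfT ℓ hℓ hℓS, sA, ← ZMod.coe_unitOfCoprime ℓ hcop, nebChar_coe, ← map_pow θc,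
        ← map_mul θc]
      rfl
    have key := hE ((L / v) ^ 2) P.M P.g hp2 hvp.symm
      (fun h => GammaH.coprime_div_of_squarefree hL hv hvL (hv.dvd_of_dvd_pow h))
      (by rw [← mul_pow, Nat.mul_div_cancel' hvL]; exact P.dvd)
      P.isNewform hES et het1 hord F _ hFneb hFa hF0 S
      (fun w hw h => (hw.dvd_mul.1 h).elim
        (fun h => (hw.dvd_mul.1 h).elim (fun h => hS w hw (h.trans hvL))
          fun h => hS w hw ((hw.dvd_of_dvd_pow h).trans (Nat.div_dvd_of_dvd hvL)))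
        fun h => (Nat.prime_dvd_prime_iff_eq hw Fact.out).1 h ▸ hpS)
      (fun ℓ hℓ hℓS n => by rw [hg ℓ hℓ hℓS]; exact hFrec ℓ hℓ hℓS n)
      P.R P.p_mem (P.emb.toRingHom.comp P.j) (P.emb.injective.comp P.j_injective)
      (P.adicRep (D := D)) (G.isAbsolutelyIrreducible hp θ)
      (fun ℓ hℓ hℓS A' hA' s hs => by
        have hℓM : ¬ ℓ ∣ P.M := fun hd => hℓS (hS ℓ hℓ (hℓ.dvd_of_dvd_pow (hd.trans P.dvd)))
        refine ⟨?_, (D P.M).det_eigenAction_of_roots _ _ P.p_mem (q := ℓ) fun n ζ hζ =>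
          GaloisReps.frobenius_apply_root hA' hℓ hs hζ fun h =>
            hℓS (by rw [(Nat.prime_dvd_prime_iff_eq hℓ Fact.out).1 (hℓ.dvd_of_dvd_pow h)]
                    exact hpS)⟩
        have h1 := P.trace_frobenius_pow D hpS hℓ hℓS hA' hs 1
        rw [pow_one, P.trace_rep D, GaloisReps.powerTrace, ← P.value hℓ hℓS] at h1
        show P.emb (P.j (LinearMap.trace P.R _ ((D P.M).eigenAction P.ι P.θ' s))) = _
        rw [h1, P.emb_θ', HeckeDuality.heckeOp, dif_neg hℓM]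
        exact ConductorLevel.eigenChar_T _ hℓ hℓM _)
      A hA hker σ hσ a' ha'
    have key' : P.emb ((P.rep D σ).trace) = et (a' : ZMod v) + et⁻¹ (a' : ZMod v) := by
      rw [P.trace_rep D]
      exact key
    refine P.emb.injective (key'.trans ?_)
    have heta : et (a' : ZMod v) = θc (diaA H (ψ u ^ e)) := by
      rw [map_pow (diaA H), map_pow θc, ← nebChar_coe]
      exact GammaH.etaComp_spec hL hv hvL u ((GammaH.unitsMap_eq_one_iff _ u).2 hu)
    have hinv : (θc (diaA H (ψ u ^ e)))⁻¹ = θc (diaA H (ψ u ^ e)⁻¹) :=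
      inv_eq_of_mul_eq_one_right (by
        rw [← map_mul, ← map_mul, mul_inv_cancel, map_one, map_one])
    rw [MulChar.inv_apply_eq_inv', heta, hinv, map_add]
    rfl
  · have h1 : ∀ w : (ZMod L)ˣ, ((w : ZMod L).cast : ZMod (L / v)) = 1 →
        θ (diaA H (ψ w)) = 1 := fun w hw => by
      by_contra hne
      refine hv' (GammaH.mem_badPrimes.2 ⟨hv, hvL, w, hw, fun h => hne (P.emb.injective ?_)⟩)
      rw [map_one]
      exact (nebChar_coe θc w).symm.trans h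
    have h2 := P.sq_not_dvd hv hvL h1
    rw [(P.unipotent D hv hvp (fun hd => hU _ P.dvd hd h2) hA hσ).1,
      ← inv_pow, map_pow, map_pow, map_pow, map_pow, h1 u hu]
    have h3 : θ (diaA H (ψ u)⁻¹) = 1 := by
      have := congrArg θ (map_mul (diaA H) (ψ u) (ψ u)⁻¹)
      rwa [mul_inv_cancel, map_one, map_one, map_mul, h1 u hu, one_mul, eq_comm] at this
    rw [h3, one_pow]
    norm_num

end Fermat.Agent.RT.Glue
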