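import Fermat.Agent.RT.Glue.Basic
import Fermat.Agent.NewformLocal.Toric.Assembly

/-!
# Inertia and Frobenius at the primes of the level
-/

set_option autoImplicit false

noncomputable section

open IsLocalRing Polynomial

namespace Fermat.Agent.RT.Glue

open GaloisReps (AbsGal HeckeGaloisModel)
open NewformLocal (UnipotentAt levelPrimes)
open NewformLocal.Toric (QuarticAt)

variable {O : Type} [CommRing O] [IsDomain O] [IsDiscreteValuationRing O]
  {p : ℕ} [Fact p.Prime]
  {L : ℕ} {Δ : Type} [CommGroup Δ] {ψ : (ZMod L)ˣ →* Δ} {S : Finset ℕ}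
  {abar : ℕ → ResidueField O}
  {H : HeckeModule L ψ S abar} {hS : ∀ q : ℕ, q.Prime → q ∣ L → q ∈ S}
  (D : ∀ (M : ℕ) [NeZero M], HeckeGaloisModel M p)

/-- A two by two unipotent matrix over a domain has trace two and determinant one. -/
theorem trace_det_of_unipotent {R : Type} [CommRing R] [IsDomain R] {X : Matrix (Fin 2) (Fin 2) R}
    (h : (X - 1) ^ 2 = 0) : X.trace = 2 ∧ X.det = 1 := by
  have hd : (X - 1).det = 0 := by
    have := congrArg Matrix.det h
    rw [Matrix.det_pow, Matrix.det_zero] at this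
    exact pow_eq_zero_iff two_ne_zero |>.1 this
  have ht : (X - 1).trace = 0 := by
    have h00 := congrFun (congrFun h 0) 0
    have h11 := congrFun (congrFun h 1) 1
    rw [pow_two, Matrix.mul_apply, Fin.sum_univ_two] at h00 h11
    rw [Matrix.det_fin_two] at hd
    simp only [Matrix.sub_apply, Matrix.one_apply_eq, Matrix.zero_apply,
      Matrix.one_apply_ne (show (0 : Fin 2) ≠ 1 by decide),
      Matrix.one_apply_ne (show (1 : Fin 2) ≠ 0 by decide)] at h00 h11 hd
    rw [Matrix.trace_fin_two]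
    simp only [Matrix.sub_apply, Matrix.one_apply_eq]
    refine pow_eq_zero_iff two_ne_zero |>.1 ?_
    linear_combination h00 + h11 + 2 * hd
  rw [Matrix.det_fin_two] at hd ⊢
  rw [Matrix.trace_fin_two] at ht ⊢
  simp only [Matrix.sub_apply, Matrix.one_apply_eq,
    Matrix.one_apply_ne (show (0 : Fin 2) ≠ 1 by decide),
    Matrix.one_apply_ne (show (1 : Fin 2) ≠ 0 by decide)] at ht hd
  exact ⟨by linear_combination ht, by linear_combination hd + ht⟩

section Points

variable {θK : H.algebra →+* KBar O} (P : Point (p := p) H hS θK)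

theorem Point.sq_not_dvd {v : ℕ} (hv : v.Prime) (hvL : v ∣ L)
    (hψ : ∀ u : (ZMod L)ˣ, ((u : ZMod L).cast : ZMod (L / v)) = 1 → θK (diaA H (ψ u)) = 1) :
    ¬ v ^ 2 ∣ P.M := fun h => by
  obtain ⟨u, hu, hne⟩ := (P.sq_dvd v hv hvL).1 h
  exact hne (hψ u hu)

theorem Point.unipotent {v : ℕ} (hv : v.Prime) (hvp : v ≠ p)
    (hU : v ∣ P.M → UnipotentAt (D P.M) v) {A : ValuationSubring (AlgebraicClosure ℚ)}
    (hA : A.LiesOverPrime v) {σ : AbsGal} (hσ : σ ∈ A.inertiaSubgroupIn ℚ) :
    (P.rep D σ).trace = 2 ∧ (P.rep D σ).det = 1 := by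
  by_cases h : v ∣ P.M
  · have hsq : ((D P.M).eigenAction P.ι P.θ' σ - 1) ^ 2 = 0 := by
      refine LinearMap.ext fun w => Subtype.ext ?_
      have h1 := congrArg P.ι.mapMatrix (hU h A hA σ hσ)
      rw [pow_two, map_mul, map_sub, map_one, map_zero, RingHom.mapMatrix_apply] at h1
      have h2 := congrArg (fun m : Matrix (Fin (D P.M).d) (Fin (D P.M).d) P.R => m.mulVec w.1) h1
      simp only [Matrix.zero_mulVec, ← Matrix.mulVec_mulVec, Matrix.sub_mulVec,
        Matrix.one_mulVec, Matrix.mulVec_sub] at h2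
      simp only [pow_two, Module.End.mul_apply, LinearMap.sub_apply, Module.End.one_apply,
        AddSubgroupClass.coe_sub, GaloisReps.HeckeGaloisModel.coe_eigenAction,
        LinearMap.zero_apply, ZeroMemClass.coe_zero, Matrix.mulVec_sub] at h2 ⊢
      exact h2
    let φ : Module.End P.R (GaloisReps.eigenspace (D P.M).hecke P.θ') →+*
        Matrix (Fin 2) (Fin 2) (KBar O) :=
      P.j.mapMatrix.comp
        (LinearMap.toMatrixAlgEquiv ((D P.M).eigenBasis P.θ')).toAlgHom.toRingHom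
    have h4 : (P.rep D σ - 1) ^ 2 = 0 := by
      rw [show P.rep D σ = φ ((D P.M).eigenAction P.ι P.θ' σ) from rfl, ← map_one φ, ← map_sub,
        ← map_pow, hsq, map_zero]
    exact trace_det_of_unipotent h4
  · have hne : ¬ v ∣ P.M * p := fun h' => (hv.dvd_mul.1 h').elim h fun h'' =>
      hvp ((Nat.prime_dvd_prime_iff_eq hv Fact.out).1 h'')
    rw [P.rep_eq_one ((D P.M).gal_unramified v hv hne A hA σ hσ)]
    exact ⟨by simp, Matrix.det_one⟩

theorem Point.trace_sq_frobenius {v : ℕ} (hv : v.Prime) (hvp : v ≠ p) (hvM : v ∣ P.M)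
    (hT : QuarticAt (D P.M) v)
    {A : ValuationSubring (AlgebraicClosure ℚ)} (hA : A.LiesOverPrime v) {σ : AbsGal}
    (hσ : A.IsFrobeniusAt σ v) : (P.rep D σ).trace ^ 2 = ((v : KBar O) + 1) ^ 2 := by
  have hR : P.M / v ∣ P.M := Nat.div_dvd_of_dvd hvM
  have hRq : P.M / v * v = P.M := Nat.div_mul_cancel hvM
  have : NeZero (P.M / v) := ⟨fun h => NeZero.ne P.M (by rw [← hRq, h, zero_mul])⟩
  obtain ⟨t, ht, htg⟩ := NewformLocal.exists_killsOld_ne_zero P.isNewform hR
    (Nat.div_lt_self (Nat.pos_of_ne_zero (NeZero.ne P.M)) hv.one_lt).ne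
  have hθt : P.θ' (GaloisReps.toFull _ t) ≠ 0 := fun h0 => by
    have h2 := P.emb_θ' (GaloisReps.toFull _ t)
    rw [h0, map_zero, map_zero, NewformLocal.eigenChar_toFull, eq_comm] at h2
    exact htg h2
  have key := NewformLocal.Toric.charpoly_frobenius_bad (D P.M) P.ι P.θ' P.p_mem hv hvp hR hRq
    hT t ht hθt hA hσ
  have htr : (P.rep D σ).trace = P.j ((v : P.R) + 1) ∨
      (P.rep D σ).trace = P.j (-((v : P.R) + 1)) := by
    rw [P.trace_rep D, LinearMap.trace_eq_matrix_trace P.R ((D P.M).eigenBasis P.θ'),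
      Matrix.trace_eq_neg_charpoly_coeff, LinearMap.charpoly_toMatrix]
    rcases key with h | h
    · exact Or.inl (by rw [h]; simp [Fintype.card_fin])
    · exact Or.inr (by rw [h]; simp [Fintype.card_fin])
  rcases htr with h | h <;> rw [h] <;> simp [add_comm]
  ring

end Points

variable [IsAdicComplete (maximalIdeal O) O] [Finite (ResidueField O)] [CharZero O]
  [NeZero L] [Finite Δ] [IsLocalRing H.algebra]
  {D} {pt : ∀ θ : H.algebra →ₐ[O] KBar O, Point (p := p) H hS θ.toRingHom} (G : Glued D pt)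

omit [IsAdicComplete (maximalIdeal O) O] [Finite (ResidueField O)] [CharZero O] [NeZero L] in
/-- Inertia is unipotent at a prime where `ψ` is trivial. -/
theorem Glued.isUnipotentOnInertiaAt {v : ℕ} (hv : v.Prime) (hvL : v ∣ L) (hvp : v ≠ p)
    (hψ : ∀ u : (ZMod L)ˣ, ((u : ZMod L).cast : ZMod (L / v)) = 1 → ψ u = 1)
    (hU : ∀ (M : ℕ) [NeZero M], M ∣ L ^ 2 → v ∣ M → ¬ v ^ 2 ∣ M → UnipotentAt (D M) v) :
    G.rep.IsUnipotentOnInertiaAt v := by
  intro A hA σ hσ
  have h : ∀ θ, ((pt θ).rep D σ).trace = 2 ∧ ((pt θ).rep D σ).det = 1 := fun θ =>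
    (pt θ).unipotent D hv hvp
      (fun hd => hU _ (pt θ).dvd hd
        ((pt θ).sq_not_dvd hv hvL fun u hu => by rw [hψ u hu, map_one, map_one])) hA hσ
  rw [G.charpoly_rep_eq (t := 2) (d := 1) (fun θ => by rw [map_ofNat]; exact (h θ).1)
    fun θ => by rw [map_one]; exact (h θ).2]
  rw [map_ofNat, map_one]
  ring

/-- The pointwise hypothesis on inertia at a prime where `ψ` is nontrivial. -/
def TwistedInertia (D : ∀ (M : ℕ) [NeZero M], HeckeGaloisModel M p)
    (pt : ∀ θ : H.algebra →ₐ[O] KBar O, Point (p := p) H hS θ.toRingHom) (v : ℕ) : Prop :=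
  ∀ A : ValuationSubring (AlgebraicClosure ℚ), A.LiesOverPrime v →
    ∀ σ ∈ A.inertiaSubgroupIn ℚ, ∀ a : ℕ,
      (∀ μ : AlgebraicClosure ℚ, μ ^ v = 1 → σ μ = μ ^ a) →
      ∀ u : (ZMod L)ˣ, ((u : ZMod L).cast : ZMod (L / v)) = 1 →
        ((u : ZMod L).cast : ZMod v) = a →
        ∀ θ : H.algebra →ₐ[O] KBar O, ((pt θ).rep D σ).trace =
          θ (diaA H (ψ u ^ halfInvExp Δ)) + θ (diaA H (ψ u ^ halfInvExp Δ)⁻¹)

omit [IsAdicComplete (maximalIdeal O) O] [Finite (ResidueField O)] [CharZero O] [NeZero L] in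
/-- The characteristic polynomial of inertia at a prime where `ψ` is nontrivial. -/
theorem Glued.charpoly_inertia {v : ℕ} (hv : v.Prime) (hvp : v ≠ p)
    (hE : TwistedInertia D pt v) {A : ValuationSubring (AlgebraicClosure ℚ)}
    (hA : A.LiesOverPrime v) {σ : AbsGal} (hσ : σ ∈ A.inertiaSubgroupIn ℚ) {a : ℕ}
    (ha : ∀ μ : AlgebraicClosure ℚ, μ ^ v = 1 → σ μ = μ ^ a) (u : (ZMod L)ˣ)
    (hu : ((u : ZMod L).cast : ZMod (L / v)) = 1) (hua : ((u : ZMod L).cast : ZMod v) = a) :
    LinearMap.charpoly (G.rep.ρ σ) =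
      (X - C (diaA H (ψ u ^ halfInvExp Δ))) * (X - C (diaA H (ψ u ^ halfInvExp Δ)⁻¹)) := by
  rw [G.charpoly_rep_eq
    (t := diaA H (ψ u ^ halfInvExp Δ) + diaA H (ψ u ^ halfInvExp Δ)⁻¹) (d := 1)
    (fun θ => by rw [map_add]; exact hE A hA σ hσ a ha u hu hua θ) fun θ => by
    rw [(pt θ).det_rep D, (D (pt θ).M).det_eigenAction_of_roots _ _ (pt θ).p_mem (q := 1)
      fun n ζ hζ => by
        rw [pow_one]
        exact Arith.inertia_root hA hv hσ hζ fun h =>
          hvp ((Nat.prime_dvd_prime_iff_eq hv Fact.out).1 (hv.dvd_of_dvd_pow h)),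
      Nat.cast_one, map_one, map_one]]
  have h1 : diaA H (ψ u ^ halfInvExp Δ) * diaA H (ψ u ^ halfInvExp Δ)⁻¹ = 1 := by
    rw [← map_mul, mul_inv_cancel, map_one]
  rw [map_add, sub_mul, mul_sub, mul_sub, ← map_mul, h1]
  ring

omit [IsAdicComplete (maximalIdeal O) O] [CharZero O] [NeZero L] [Finite Δ]
  [IsLocalRing H.algebra] in
/-- A homomorphism to `ℂ` factors through the algebraic closure of the fraction field. -/
theorem exists_point_of_complex [Algebra.IsIntegral O H.algebra] (θ : H.algebra →+* ℂ) :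
    ∃ (f : KBar O →+* ℂ) (θ' : H.algebra →ₐ[O] KBar O), ∀ x, θ x = f (θ' x) := by
  let φ : O →+* ℂ := θ.comp (algebraMap O H.algebra)
  have hφ : Function.Injective φ := by
    rw [RingHom.injective_iff_ker_eq_bot]
    by_contra h0
    have : (RingHom.ker φ).IsMaximal := (RingHom.ker_isPrime φ).isMaximal h0
    have hm := eq_maximalIdeal this
    have hn : (Nat.card (ResidueField O) : ResidueField O) = 0 := by
      rw [← nsmul_one]
      exact card_nsmul_eq_zero'
    rw [← map_natCast (residue O), residue_eq_zero_iff, ← hm, RingHom.mem_ker, map_natCast,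
      Nat.cast_eq_zero] at hn
    exact Nat.card_pos.ne' hn
  let : Algebra O ℂ := φ.toAlgebra
  have : Module.IsTorsionFree O ℂ := Module.isTorsionFree_iff_algebraMap_injective.2 hφ
  have : Module.IsTorsionFree O (KBar O) :=
    Module.isTorsionFree_iff_algebraMap_injective.2 (by
      rw [IsScalarTower.algebraMap_eq O (FractionRing O)]
      exact (algebraMap (FractionRing O) _).injective.comp (IsFractionRing.injective O _))
  have : Algebra.IsAlgebraic O (KBar O) :=
    (IsFractionRing.comap_isAlgebraic_iff (A := O) (K := FractionRing O)).2 inferInstance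
  let f : KBar O →ₐ[O] ℂ := IsAlgClosed.lift
  have hrange : ∀ x, θ x ∈ f.range := fun x => by
    obtain ⟨q, hq, hq0⟩ := Algebra.IsIntegral.isIntegral (R := O) x
    have hsplit : (q.map (algebraMap O (KBar O))).Splits := IsAlgClosed.splits _
    have hroot : θ x ∈ (q.map φ).roots := by
      rw [Polynomial.mem_roots ((hq.map φ).ne_zero), Polynomial.IsRoot, Polynomial.eval_map]
      have h := congrArg θ hq0
      rwa [map_zero, Polynomial.hom_eval₂] at h
    have hmap : q.map φ = (q.map (algebraMap O (KBar O))).map f.toRingHom := by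
      rw [Polynomial.map_map]
      exact congrArg (fun g => q.map g) f.comp_algebraMap.symm
    rw [hmap, hsplit.roots_map, Multiset.mem_map] at hroot
    obtain ⟨y, -, hy⟩ := hroot
    exact ⟨y, hy⟩
  let e : KBar O ≃ₐ[O] f.range := AlgEquiv.ofInjective f f.toRingHom.injective
  let θc : H.algebra →ₐ[O] f.range :=
    AlgHom.codRestrict { θ with commutes' := fun r => rfl } f.range hrange
  refine ⟨f.toRingHom, e.symm.toAlgHom.comp θc, fun x => ?_⟩
  exact (congrArg Subtype.val (e.apply_symm_apply (θc x))).symm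

omit [IsAdicComplete (maximalIdeal O) O] [NeZero L] in
/-- The squared trace of a Frobenius element at a prime at which the point is special. -/
theorem Glued.trace_sq_frobenius {v : ℕ} (hv : v.Prime) (hvL : v ∣ L) (hvp : v ≠ p)
    (hncl : ¬ IsCongruentLevel S abar (L / v))
    (hM : ∀ (M : ℕ) [NeZero M], M ∣ L ^ 2 → v ∣ M → ¬ v ^ 2 ∣ M →
      UnipotentAt (D M) v ∧ QuarticAt (D M) v)
    {A : ValuationSubring (AlgebraicClosure ℚ)} (hA : A.LiesOverPrime v) {σ : AbsGal}
    (hσ : A.IsFrobeniusAt σ v) (θ : H.algebra →+* ℂ)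
    (hθ : ∀ u : (ZMod L)ˣ, ((u : ZMod L).cast : ZMod (L / v)) = 1 → θ (diaA H (ψ u)) = 1) :
    θ (LinearMap.trace H.algebra G.rep.V (G.rep.ρ σ)) ^ 2 = ((v : ℂ) + 1) ^ 2 := by
  obtain ⟨f, θ', hf⟩ := exists_point_of_complex θ
  have hdvd : v ∣ (pt θ').M := by_contra fun h => hncl ((pt θ').congruent v hv hvL h)
  have h2 : ¬ v ^ 2 ∣ (pt θ').M := (pt θ').sq_not_dvd hv hvL fun u hu =>
    f.injective ((hf _).symm.trans ((hθ u hu).trans f.map_one.symm))
  have key := (pt θ').trace_sq_frobenius D hv hvp hdvd (hM _ (pt θ').dvd hdvd h2).2 hA hσ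
  rw [G.trace_rep, hf, G.trace_eq, ← map_pow, key, map_pow, map_add, map_natCast, map_one]

end Fermat.Agent.RT.Glue
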