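import Fermat.Agent.GaloisReps.CoeffExt
import Fermat.Agent.GaloisReps.Rep

/-!
# Points of a reduced finite torsion-free algebra over a complete discrete valuation ring
-/

set_option autoImplicit false

noncomputable section

open IsLocalRing

namespace Fermat.Agent.RT.Glue

variable {O : Type} [CommRing O] [IsDomain O] [IsDiscreteValuationRing O]

/-- The values of the points in an algebraic closure separate the elements. -/
theorem exists_algHom_apply_ne_zero {A : Type} [CommRing A] [Algebra O A] [IsReduced A]
    [Module.Finite O A] [Module.IsTorsionFree O A] {x : A} (hx : x ≠ 0) :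
    ∃ θ : A →ₐ[O] AlgebraicClosure (FractionRing O), θ x ≠ 0 := by
  obtain ⟨P, hP, hxP⟩ : ∃ P ∈ minimalPrimes A, x ∉ P := by
    by_contra! hall
    refine hx (IsReduced.eq_zero x (mem_nilradical.1 ?_))
    rw [nilradical_eq_sInf, Ideal.mem_sInf]
    intro Q hQ
    have : Q.IsPrime := hQ
    obtain ⟨P, hP, hPQ⟩ := Ideal.exists_minimalPrimes_le (I := ⊥) (J := Q) bot_le
    exact hPQ (hall P hP)
  have hPp : P.IsPrime := hP.1.1
  have hinj : Function.Injective (algebraMap O (A ⧸ P)) := by
    refine (injective_iff_map_eq_zero _).2 fun a ha => by_contra fun ha0 => ?_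
    rw [← Ideal.Quotient.mk_algebraMap, Ideal.Quotient.eq_zero_iff_mem] at ha
    refine Set.disjoint_left.1 (Ideal.disjoint_nonZeroDivisors_of_mem_minimalPrimes hP) ha ?_
    rw [SetLike.mem_coe, mem_nonZeroDivisors_iff]
    constructor <;> intro b hb
    · rw [← Algebra.smul_def, smul_eq_zero] at hb
      exact hb.resolve_left ha0
    · rw [mul_comm, ← Algebra.smul_def, smul_eq_zero] at hb
      exact hb.resolve_left ha0
  have : Module.IsTorsionFree O (A ⧸ P) := Module.isTorsionFree_iff_algebraMap_injective.2 hinj
  have : Algebra.IsAlgebraic O (A ⧸ P) := Algebra.IsIntegral.isAlgebraic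
  have : Module.IsTorsionFree O (AlgebraicClosure (FractionRing O)) :=
    Module.isTorsionFree_iff_algebraMap_injective.2 (by
      rw [IsScalarTower.algebraMap_eq O (FractionRing O)]
      exact (algebraMap (FractionRing O) _).injective.comp (IsFractionRing.injective O _))
  let ψ : (A ⧸ P) →ₐ[O] AlgebraicClosure (FractionRing O) := IsAlgClosed.lift
  refine ⟨ψ.comp (Ideal.Quotient.mkₐ O P), fun h => hxP ?_⟩
  have hψ : Function.Injective ψ := by
    refine (injective_iff_map_eq_zero ψ).2 fun y hy => ?_
    by_contra hy0
    obtain ⟨r, hr, hry⟩ := (Algebra.IsAlgebraic.isAlgebraic (R := O) y).exists_nonzero_dvd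
      (mem_nonZeroDivisors_of_ne_zero hy0)
    obtain ⟨z, hz⟩ := hry
    have h := congrArg ψ hz
    rw [AlgHom.commutes, map_mul, hy, zero_mul] at h
    exact hr ((Module.isTorsionFree_iff_algebraMap_injective.1 inferInstance)
      (h.trans (map_zero (algebraMap O (AlgebraicClosure (FractionRing O)))).symm))
  rw [← Ideal.Quotient.eq_zero_iff_mem]
  exact hψ (h.trans (map_zero ψ).symm)

/-- An element which is an integral multiple of every power of `p` vanishes. -/
theorem eq_zero_of_forall_integral [IsAdicComplete (maximalIdeal O) O] [Finite (ResidueField O)]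
    [CharZero O] {p : ℕ} (hp : (p : O) ∈ maximalIdeal O) {y : AlgebraicClosure (FractionRing O)}
    (h : ∀ N : ℕ, ∃ r, IsIntegral O r ∧ y = (p : AlgebraicClosure (FractionRing O)) ^ N * r) :
    y = 0 := by
  rcases Nat.eq_zero_or_pos p with rfl | hp0
  · obtain ⟨r, -, hr⟩ := h 1
    simpa using hr
  set K := FractionRing O
  let L : IntermediateField K (AlgebraicClosure K) := IntermediateField.adjoin K {y}
  have : FiniteDimensional K L :=
    IntermediateField.adjoin.finiteDimensional (Algebra.IsIntegral.isIntegral y)
  obtain ⟨hdvr, -, -, hhom, -⟩ := GaloisReps.exists_integralClosure_dvr O L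
  have hy : y ∈ L := IntermediateField.mem_adjoin_simple_self K y
  have hint : ∀ N : ℕ, ∃ r : integralClosure O L,
      (⟨y, hy⟩ : L) = (p : L) ^ N * (r : L) := by
    intro N
    obtain ⟨r, hr, hyr⟩ := h N
    have hp0' : (p : AlgebraicClosure K) ≠ 0 := by
      have : CharZero K := charZero_of_injective_algebraMap (IsFractionRing.injective O K)
      have : CharZero (AlgebraicClosure K) :=
        charZero_of_injective_algebraMap (algebraMap K (AlgebraicClosure K)).injective
      exact_mod_cast hp0.ne'
    have hrL : r ∈ L := by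
      rw [show r = ((p : AlgebraicClosure K) ^ N)⁻¹ * y by
        rw [hyr, inv_mul_cancel_left₀ (pow_ne_zero _ hp0')]]
      exact mul_mem (inv_mem (pow_mem (natCast_mem L p) N)) hy
    have hi : IsIntegral O (⟨r, hrL⟩ : L) :=
      (isIntegral_algHom_iff (L.val.restrictScalars O) L.val.injective).mp hr
    exact ⟨⟨⟨r, hrL⟩, hi⟩, Subtype.ext (by simpa using hyr)⟩
  choose r hr using hint
  have hrp : (r 0 : integralClosure O L) = 0 := by
    refine GaloisReps.HeckeGaloisModel.eq_zero_of_forall_pow_dvd (p := p) ?_ fun N => ⟨r N, ?_⟩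
    · rw [← map_natCast (algebraMap O (integralClosure O L)) p]
      exact map_nonunit (algebraMap O (integralClosure O L)) _ hp
    · refine Subtype.ext ?_
      have h0 := hr 0
      rw [pow_zero, one_mul] at h0
      simpa [h0] using hr N
  have h0 := hr 0
  rw [hrp] at h0
  simpa using congrArg Subtype.val h0

end Fermat.Agent.RT.Glue
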