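import Mathlib

/-!
# A representation over a ring from pointwise representations with traces in the ring

Let `A` be a complete local ring in which `2` is invertible, embedded in a product of fields, and
let a group have two-dimensional representations over the fields whose traces come from `A` and
whose residual representation spans the matrices. They come from a representation over `A`.
-/

set_option autoImplicit false

noncomputable section

open IsLocalRing Matrix

namespace Fermat.Agent.RT.Glue

section Units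

variable {K : Type*} [Field K]

/-- For `tr e = 1` and `det e = 0` the sandwich `e X e` is `tr (X e) e`. -/
theorem sandwich_eq {e : Matrix (Fin 2) (Fin 2) K} (ht : e.trace = 1) (hd : e.det = 0)
    (X : Matrix (Fin 2) (Fin 2) K) : e * X * e = (X * e).trace • e := by
  rw [Matrix.trace_fin_two] at ht
  rw [Matrix.det_fin_two] at hd
  ext i j
  fin_cases i <;> fin_cases j <;>
    simp [Matrix.mul_apply, Fin.sum_univ_two, Matrix.trace_fin_two, Matrix.smul_apply] <;> grind

theorem mul_self_eq {e : Matrix (Fin 2) (Fin 2) K} (ht : e.trace = 1) (hd : e.det = 0) :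
    e * e = e := by
  rw [Matrix.trace_fin_two] at ht
  rw [Matrix.det_fin_two] at hd
  ext i j
  fin_cases i <;> fin_cases j <;> simp [Matrix.mul_apply, Fin.sum_univ_two] <;> grind

theorem det_one_sub {e : Matrix (Fin 2) (Fin 2) K} (ht : e.trace = 1) (hd : e.det = 0) :
    (1 - e).det = 0 := by
  rw [Matrix.trace_fin_two] at ht
  rw [Matrix.det_fin_two] at hd ⊢
  simp
  grind

theorem trace_one_sub {e : Matrix (Fin 2) (Fin 2) K} (ht : e.trace = 1) : (1 - e).trace = 1 := by
  rw [Matrix.trace_sub, Matrix.trace_one, ht]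
  simp
  norm_num

/-- A system of matrix units built from `e`, `y`, `z`. -/
def munit {R : Type*} [Ring R] (e y z : R) (a b : Fin 2) : R :=
  if a = 0 then (if b = 0 then e else e * z * (1 - e))
  else (if b = 0 then (1 - e) * y * e else 1 - e)

theorem munit_map {R R' : Type*} [Ring R] [Ring R'] (φ : R →+* R') (e y z : R) (a b : Fin 2) :
    φ (munit e y z a b) = munit (φ e) (φ y) (φ z) a b := by
  fin_cases a <;> fin_cases b <;> simp [munit]

/-- Coordinates with respect to the matrix units are multiplicative. -/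
theorem coord_mul {e y z : Matrix (Fin 2) (Fin 2) K} (ht : e.trace = 1) (hd : e.det = 0)
    (hc : (e * z * (1 - e) * y * e).trace = 1) (X Y : Matrix (Fin 2) (Fin 2) K) (a b : Fin 2) :
    (X * Y * munit e y z b a).trace =
      ∑ k, (X * munit e y z k a).trace * (Y * munit e y z b k).trace := by
  have hee := mul_self_eq ht hd
  have htQ := trace_one_sub ht
  have hdQ := det_one_sub ht hd
  have hQQ := mul_self_eq htQ hdQ
  have heQ : e * (1 - e) = 0 := by rw [mul_sub, mul_one, hee, sub_self]
  have hQe : (1 - e) * e = 0 := by rw [sub_mul, one_mul, hee, sub_self]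
  set f := munit e y z with hf
  have h00 : f 0 0 = e := rfl
  -- `e` kills the rows and columns
  have hl : ∀ k, f 0 k * f k 0 = e := by
    intro k
    fin_cases k
    · show e * e = e
      exact hee
    · show e * z * (1 - e) * ((1 - e) * y * e) = e
      have : e * z * (1 - e) * ((1 - e) * y * e) = e * (z * (1 - e) * y) * e := by
        rw [show e * z * (1 - e) * ((1 - e) * y * e) = e * z * ((1 - e) * (1 - e)) * y * e by
          simp only [mul_assoc], hQQ]
        simp only [mul_assoc]
      rw [this, sandwich_eq ht hd, ← hee, ← mul_assoc, Matrix.trace_mul_comm _ e]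
      rw [← mul_assoc, ← mul_assoc, ← mul_assoc, hee, hc, one_smul]
  have hr : ∀ k, f k 0 * f 0 k = (if k = 0 then e else 1 - e) := by
    intro k
    fin_cases k
    · show e * e = _
      simpa using hee
    · show (1 - e) * y * e * (e * z * (1 - e)) = _
      have : (1 - e) * y * e * (e * z * (1 - e)) = (1 - e) * (y * e * z) * (1 - e) := by
        rw [show (1 - e) * y * e * (e * z * (1 - e)) = (1 - e) * y * (e * e) * z * (1 - e) by
          simp only [mul_assoc], hee]
        simp only [mul_assoc]
      rw [this, sandwich_eq htQ hdQ]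
      have : (y * e * z * (1 - e)).trace = 1 := by
        rw [show y * e * z * (1 - e) = y * (e * (e * z * (1 - e))) by
          simp only [← mul_assoc]; rw [mul_assoc y e e, hee], ← mul_assoc,
          Matrix.trace_mul_comm, ← mul_assoc, hc]
      rw [this, one_smul]
      simp
  have hsum : ∑ k, f k 0 * f 0 k = 1 := by
    rw [Fin.sum_univ_two, hr, hr]; simp
  -- sandwiches
  have hsand : ∀ (a' b' : Fin 2) (W : Matrix (Fin 2) (Fin 2) K),
      f 0 a' * W * f b' 0 = (W * f b' a').trace • e := by
    intro a' b' W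
    have e1 : ∀ k, e * f 0 k = f 0 k := by
      intro k; fin_cases k
      · exact hee
      · show e * (e * z * (1 - e)) = e * z * (1 - e)
        rw [← mul_assoc, ← mul_assoc, hee]
    have e2 : ∀ k, f k 0 * e = f k 0 := by
      intro k; fin_cases k
      · exact hee
      · show (1 - e) * y * e * e = (1 - e) * y * e
        rw [mul_assoc, hee]
    have : f 0 a' * W * f b' 0 = e * (f 0 a' * W * f b' 0) * e := by
      rw [show e * (f 0 a' * W * f b' 0) * e = (e * f 0 a') * W * (f b' 0 * e) by
        simp only [mul_assoc], e1, e2]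
    rw [this, sandwich_eq ht hd, show f 0 a' * W * f b' 0 * e = f 0 a' * W * (f b' 0 * e) by
      simp only [mul_assoc], e2, mul_assoc, Matrix.trace_mul_comm, mul_assoc]
    congr 3
    -- `f b' 0 * f 0 a' = f b' a'`
    have : f b' 0 * f 0 a' = f b' a' := by
      fin_cases b' <;> fin_cases a'
      · exact hee
      · exact e1 1
      · exact e2 1
      · refine (hr 1).trans ?_
        simp [f, munit]
    exact this
  have key : (X * Y * f b a).trace • e = (∑ k, (X * f k a).trace * (Y * f b k).trace) • e := by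
    rw [← hsand, Finset.sum_smul]
    calc f 0 a * (X * Y) * f b 0 = f 0 a * X * (∑ k, f k 0 * f 0 k) * (Y * f b 0) := by
          rw [hsum, mul_one]; simp only [mul_assoc]
      _ = ∑ k, f 0 a * X * f k 0 * (f 0 k * Y * f b 0) := by
          rw [Finset.mul_sum, Finset.sum_mul]
          exact Finset.sum_congr rfl fun k _ => by simp only [mul_assoc]
      _ = _ := by
          refine Finset.sum_congr rfl fun k _ => ?_
          rw [hsand, hsand, smul_mul_smul_comm, hee]
  have he0 : e ≠ 0 := fun h0 => by simp [h0] at ht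
  exact smul_left_injective K he0 key

theorem coord_one {e y z : Matrix (Fin 2) (Fin 2) K} (ht : e.trace = 1) (hd : e.det = 0)
    (a b : Fin 2) : (munit e y z b a).trace = if a = b then 1 else 0 := by
  have hee := mul_self_eq ht hd
  have heQ : e * (1 - e) = 0 := by rw [mul_sub, mul_one, hee, sub_self]
  have hQe : (1 - e) * e = 0 := by rw [sub_mul, one_mul, hee, sub_self]
  fin_cases a <;> fin_cases b
  · simpa [munit] using ht
  · show ((1 - e) * y * e).trace = 0
    rw [Matrix.trace_mul_comm, ← mul_assoc, heQ, zero_mul, Matrix.trace_zero]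
  · show (e * z * (1 - e)).trace = 0
    rw [Matrix.trace_mul_comm, ← mul_assoc, hQe, zero_mul, Matrix.trace_zero]
  · simpa [munit] using trace_one_sub ht

end Units

variable {A : Type} [CommRing A] [IsLocalRing A] [IsAdicComplete (maximalIdeal A) A]
  {G : Type} [Group G] {ι : Type} (K : ι → Type) [∀ i, Field (K i)] (π : ∀ i, A →+* K i)
  (ρ : ∀ i, G →* Matrix (Fin 2) (Fin 2) (K i)) (tA : G → A)
  (rbar : G →* Matrix (Fin 2) (Fin 2) (ResidueField A))

set_option maxHeartbeats 1000000 in
/-- The representation over `A`. -/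
theorem exists_glue (h2 : IsUnit (2 : A))
    (hπ : ∀ x : A, (∀ i, π i x = 0) → x = 0)
    (htr : ∀ i σ, (ρ i σ).trace = π i (tA σ))
    (hres : ∀ σ, (rbar σ).trace = residue A (tA σ))
    (hspan : Submodule.span (ResidueField A) (Set.range rbar) = ⊤) :
    ∃ R : G →* Matrix (Fin 2) (Fin 2) A,
      (∀ σ, (R σ).map (residue A) = rbar σ) ∧
      (∀ σ, (R σ).trace = tA σ) ∧
      (∀ i σ, π i (R σ).det = (ρ i σ).det) ∧
      (∀ i σ, (R σ).map (π i) = 1 ↔ ρ i σ = 1) ∧
      ∀ (I : Ideal A) σ, (∀ g, tA (σ * g) - tA g ∈ I) →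
        ∀ a b, R σ a b - (1 : Matrix (Fin 2) (Fin 2) A) a b ∈ I := by
  classical
  let τ : MonoidAlgebra A G →ₗ[A] A :=
    (Finsupp.linearCombination A tA).comp (MonoidAlgebra.coeffLinearEquiv A).toLinearMap
  have hτ1 : ∀ (g : G) (c : A), τ (MonoidAlgebra.single g c) = c * tA g := by
    intro g c
    show Finsupp.linearCombination A tA (MonoidAlgebra.coeff (MonoidAlgebra.single g c)) = _
    rw [MonoidAlgebra.coeff_single, Finsupp.linearCombination_single, smul_eq_mul]
  let Φ : ∀ i, MonoidAlgebra A G →+* Matrix (Fin 2) (Fin 2) (K i) := fun i =>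
    MonoidAlgebra.liftNCRingHom ((Matrix.scalar (Fin 2)).comp (π i)) (ρ i)
      fun x y => Matrix.scalar_commute _ (fun _ => Commute.all _ _) _
  let Φb : MonoidAlgebra A G →+* Matrix (Fin 2) (Fin 2) (ResidueField A) :=
    MonoidAlgebra.liftNCRingHom ((Matrix.scalar (Fin 2)).comp (residue A)) rbar
      fun x y => Matrix.scalar_commute _ (fun _ => Commute.all _ _) _
  have hΦ1 : ∀ i g (c : A), Φ i (MonoidAlgebra.single g c) = π i c • ρ i g := by
    intro i g c
    simp [Φ, MonoidAlgebra.liftNCRingHom, Matrix.smul_eq_diagonal_mul]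
  have hΦb1 : ∀ g (c : A), Φb (MonoidAlgebra.single g c) = residue A c • rbar g := by
    intro g c
    simp [Φb, MonoidAlgebra.liftNCRingHom, Matrix.smul_eq_diagonal_mul]
  have htrΦ : ∀ i w, (Φ i w).trace = π i (τ w) := by
    intro i w
    induction w using MonoidAlgebra.induction_linear with
    | zero => simp
    | add x y hx hy => rw [map_add, map_add, Matrix.trace_add, hx, hy, map_add]
    | single g c => rw [hΦ1, hτ1, Matrix.trace_smul, htr, map_mul, smul_eq_mul]
  have htrb : ∀ w, (Φb w).trace = residue A (τ w) := by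
    intro w
    induction w using MonoidAlgebra.induction_linear with
    | zero => simp
    | add x y hx hy => rw [map_add, map_add, Matrix.trace_add, hx, hy, map_add]
    | single g c => rw [hΦb1, hτ1, Matrix.trace_smul, hres, map_mul, smul_eq_mul]
  have hsurj : Function.Surjective Φb := by
    intro X
    have hX : X ∈ Submodule.span (ResidueField A) (Set.range rbar) := by
      rw [hspan]; trivial
    induction hX using Submodule.span_induction with
    | mem x hx =>
      obtain ⟨g, rfl⟩ := hx
      exact ⟨MonoidAlgebra.single g 1, by rw [hΦb1, map_one, one_smul]⟩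
    | zero => exact ⟨0, map_zero _⟩
    | add x y _ _ hx hy =>
      obtain ⟨a, ha⟩ := hx; obtain ⟨b, hb⟩ := hy
      exact ⟨a + b, by rw [map_add, ha, hb]⟩
    | smul c x _ hx =>
      obtain ⟨a, ha⟩ := hx
      obtain ⟨c', rfl⟩ := residue_surjective c
      refine ⟨MonoidAlgebra.single 1 c' * a, ?_⟩
      rw [map_mul, hΦb1, map_one rbar, ha, smul_mul_assoc, one_mul]
  obtain ⟨x, hx⟩ := hsurj !![1, 0; 0, 0]
  obtain ⟨y, hy⟩ := hsurj !![0, 0; 1, 0]
  obtain ⟨z₀, hz₀⟩ := hsurj !![0, 1; 0, 0]
  obtain ⟨u2, hu2⟩ := h2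
  set t := τ x with htdef
  set d : A := (↑u2⁻¹ : A) * (t ^ 2 - τ (x * x)) with hddef
  have hd2 : 2 * d = t ^ 2 - τ (x * x) := by
    rw [hddef, ← mul_assoc, ← hu2, Units.mul_inv, one_mul]
  have htb : residue A t = 1 := by rw [← htrb, hx]; simp [Matrix.trace_fin_two]
  have hdb : residue A d = 0 := by
    have h4 : residue A (t ^ 2 - τ (x * x)) = 0 := by
      rw [map_sub, map_pow, htb, ← htrb, map_mul, hx]
      simp [Matrix.trace_fin_two]
    rw [hddef, map_mul, h4, mul_zero]
  -- the root
  let P : Polynomial A := Polynomial.X ^ 2 - Polynomial.C t * Polynomial.X + Polynomial.C d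
  have hP : P.Monic := by simp only [P]; monicity!
  obtain ⟨α, hα, hα1⟩ := HenselianRing.is_henselian (I := maximalIdeal A) P hP 1
    (by rw [← residue_eq_zero_iff]; simp [P, htb, hdb]) (by
      have : residue A (P.derivative.eval 1) = 1 := by
        simp [P, htb]
        try norm_num
      show IsUnit (residue A (P.derivative.eval 1))
      rw [this]; exact isUnit_one)
  have hαeq : α ^ 2 - t * α + d = 0 := by simpa [P, Polynomial.IsRoot] using hα
  have hαb : residue A α = 1 := by
    rw [← sub_eq_zero, ← map_one (residue A), ← map_sub, residue_eq_zero_iff]; exact hα1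
  have hu : IsUnit (2 * α - t) := by
    refine (residue_ne_zero_iff_isUnit _).1 ?_
    rw [map_sub, map_mul, htb, hαb, map_ofNat, mul_one]
    norm_num
  obtain ⟨u, hu'⟩ := hu
  obtain ⟨ui, hui⟩ : ∃ ui : A, ui * (2 * α - t) = 1 := ⟨↑u⁻¹, by rw [← hu', Units.inv_mul]⟩
  obtain ⟨e, he⟩ : ∃ e : MonoidAlgebra A G,
      e = MonoidAlgebra.single 1 ui * (x - MonoidAlgebra.single 1 (t - α)) := ⟨_, rfl⟩
  have hΦs : ∀ i (c : A), Φ i (MonoidAlgebra.single 1 c) = π i c • 1 := fun i c => by
    rw [hΦ1, map_one]
  have hΦe : ∀ i, (Φ i e).trace = 1 ∧ (Φ i e).det = 0 := by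
    intro i
    have hdet : (Φ i x).det = π i d := by
      have h2' : (π i) 2 * (Φ i x).det = π i (2 * d) := by
        rw [hd2, map_sub, map_pow, ← htrΦ, ← htrΦ, map_mul, map_ofNat, Matrix.det_fin_two,
          Matrix.trace_fin_two, Matrix.trace_fin_two]
        simp [Matrix.mul_apply, Fin.sum_univ_two]
        ring
      rw [map_mul] at h2'
      exact mul_left_cancel₀ ((u2.isUnit.map (π i)).ne_zero |> fun h => hu2 ▸ h) h2'
    have ht' := htrΦ i x
    have hroot := congrArg (π i) hαeq
    simp only [map_add, map_sub, map_mul, map_pow, map_zero] at hroot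
    have huinv : π i ui * (2 * π i α - π i t) = 1 := by
      rw [← map_ofNat (π i) 2, ← map_mul, ← map_sub, ← map_mul, hui, map_one]
    rw [Matrix.trace_fin_two] at ht'
    rw [Matrix.det_fin_two] at hdet
    constructor
    · simp [he, map_mul, map_sub, hΦs, Matrix.trace_fin_two]
      linear_combination (π i ui) * ht' + huinv
    · simp [he, map_mul, map_sub, hΦs, Matrix.det_fin_two, -mul_eq_zero]
      linear_combination (π i ui) ^ 2 * (hdet - (π i t - π i α) * ht' + hroot)
  have hΦbe : Φb e = !![1, 0; 0, 0] := by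
    have hub : residue A ui = 1 := by
      have := congrArg (residue A) hui
      rw [map_mul, map_sub, map_mul, htb, hαb, map_one, map_ofNat, mul_one] at this
      rw [← this]; norm_num
    simp [he, map_mul, map_sub, hΦb1, hx, hub, htb, hαb]
  -- normalise `z`
  have h1e : (1 : Matrix (Fin 2) (Fin 2) (ResidueField A)) - !![1, 0; 0, 0] = !![0, 0; 0, 1] := by
    ext a b; fin_cases a <;> fin_cases b <;> simp
  set c := τ (e * z₀ * (1 - e) * y * e) with hcdef
  have hcb : residue A c = 1 := by
    rw [hcdef, ← htrb, map_mul, map_mul, map_mul, map_mul, map_sub, map_one, hΦbe, hy, hz₀, h1e]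
    simp [Matrix.trace_fin_two]
  obtain ⟨uc, huc⟩ := (residue_ne_zero_iff_isUnit c).1 (by rw [hcb]; exact one_ne_zero)
  obtain ⟨z, hzdef⟩ : ∃ z : MonoidAlgebra A G, z = MonoidAlgebra.single 1 (↑uc⁻¹ : A) * z₀ :=
    ⟨_, rfl⟩
  have hc : ∀ i, (Φ i e * Φ i z * (1 - Φ i e) * Φ i y * Φ i e).trace = 1 := by
    intro i
    have h3 : π i (↑uc⁻¹ : A) * (Φ i (e * z₀ * (1 - e) * y * e)).trace = 1 := by
      rw [htrΦ, ← map_mul, ← hcdef, ← huc, Units.inv_mul, map_one]
    simpa [hzdef, map_mul, map_sub, map_one, hΦs, smul_mul_assoc, mul_smul_comm,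
      Matrix.trace_smul] using h3
  have hΦbz : Φb z = !![0, 1; 0, 0] := by
    have hub : residue A (↑uc⁻¹ : A) = 1 := by
      have := congrArg (residue A) (uc.inv_mul)
      rwa [map_mul, huc, hcb, map_one, mul_one] at this
    simp [hzdef, map_mul, hΦb1, hz₀, hub]
  let F : G → Matrix (Fin 2) (Fin 2) A := fun σ =>
    Matrix.of fun a b => τ (MonoidAlgebra.single σ 1 * munit e y z b a)
  have hF : ∀ i σ a b, π i (F σ a b) =
      (ρ i σ * munit (Φ i e) (Φ i y) (Φ i z) b a).trace := by
    intro i σ a b
    show π i (τ _) = _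
    rw [← htrΦ, map_mul, munit_map, hΦ1, map_one, one_smul]
  have hmul : ∀ σ σ', F (σ * σ') = F σ * F σ' := by
    intro σ σ'
    ext a b
    refine sub_eq_zero.1 (hπ _ fun i => ?_)
    rw [map_sub, Matrix.mul_apply, map_sum, sub_eq_zero, hF, map_mul (ρ i),
      coord_mul (hΦe i).1 (hΦe i).2 (hc i)]
    exact Finset.sum_congr rfl fun k _ => by rw [map_mul, hF, hF]
  have hone : F 1 = 1 := by
    ext a b
    refine sub_eq_zero.1 (hπ _ fun i => ?_)
    rw [map_sub, hF, map_one, one_mul, coord_one (hΦe i).1 (hΦe i).2, Matrix.one_apply]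
    split_ifs <;> simp
  let R : G →* Matrix (Fin 2) (Fin 2) A :=
    { toFun := F, map_one' := hone, map_mul' := hmul }
  have htrR : ∀ σ, (R σ).trace = tA σ := by
    intro σ
    show (F σ).trace = _
    rw [Matrix.trace_fin_two]
    show τ (_ * e) + τ (_ * (1 - e)) = _
    rw [← map_add, ← mul_add, add_sub_cancel, mul_one, hτ1, one_mul]
  refine ⟨R, fun σ => ?_, htrR, fun i σ => ?_, fun i σ => ⟨fun h => ?_, fun h => ?_⟩,
    fun I σ hI a b => ?_⟩
  · ext a b
    show residue A (τ _) = _
    rw [← htrb, map_mul, munit_map, hΦb1, map_one, one_smul, hΦbe, hy, hΦbz]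
    fin_cases a <;> fin_cases b <;>
      simp [munit, h1e, Matrix.trace_fin_two, Matrix.mul_apply, Fin.sum_univ_two]
  · have h1 := congrArg (π i) (htrR σ)
    have h2' := congrArg (π i) (htrR (σ * σ))
    rw [← htr, Matrix.trace_fin_two, Matrix.trace_fin_two, map_add] at h1 h2'
    rw [map_mul, map_mul] at h2'
    simp only [Matrix.mul_apply, Fin.sum_univ_two, map_add, map_mul] at h2'
    refine mul_left_cancel₀ ((u2.isUnit.map (π i)).ne_zero) ?_
    rw [hu2, map_ofNat, Matrix.det_fin_two, Matrix.det_fin_two, map_sub, map_mul, map_mul]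
    linear_combination (π i (R σ 0 0) + π i (R σ 1 1) + (ρ i σ 0 0 + ρ i σ 1 1)) * h1 - h2'
  · -- `ρ i σ` is determined by its coordinates
    have hco : ∀ a b, (ρ i σ * munit (Φ i e) (Φ i y) (Φ i z) b a).trace = if a = b then 1 else 0 := by
      intro a b
      rw [← hF, show π i (F σ a b) = ((R σ).map (π i)) a b from rfl, h, Matrix.one_apply]
    have hzero : ∀ Y : Matrix (Fin 2) (Fin 2) (K i), ((ρ i σ - 1) * Y).trace = 0 := by
      intro Y
      set f := munit (Φ i e) (Φ i y) (Φ i z)
      have hk : ∀ a b, ((ρ i σ - 1) * f b a).trace = 0 := fun a b => by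
        rw [sub_mul, one_mul, Matrix.trace_sub, hco, coord_one (hΦe i).1 (hΦe i).2, sub_self]
      have h11 := coord_mul (hΦe i).1 (hΦe i).2 (hc i) (ρ i σ - 1) Y
      have : ((ρ i σ - 1) * Y).trace =
          ((ρ i σ - 1) * Y * f 0 0).trace + ((ρ i σ - 1) * Y * f 1 1).trace := by
        rw [← Matrix.trace_add, ← mul_add]
        simp [f, munit]
      rw [this, h11, h11]
      simp [f, hk]
    refine sub_eq_zero.1 ?_
    ext a b
    have := hzero (Matrix.single b a 1)
    rw [Matrix.trace_mul_single] at this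
    simpa using this
  · ext a b
    rw [Matrix.map_apply, show R σ a b = F σ a b from rfl, hF, h, one_mul,
      coord_one (hΦe i).1 (hΦe i).2, Matrix.one_apply]
  · rw [← hone]
    show τ _ - τ _ ∈ I
    generalize munit e y z b a = w
    induction w using MonoidAlgebra.induction_linear with
    | zero => simp
    | add p q hp hq => rw [mul_add, mul_add, map_add, map_add, add_sub_add_comm]; exact I.add_mem hp hq
    | single g r =>
      rw [MonoidAlgebra.single_mul_single, MonoidAlgebra.single_mul_single, hτ1, hτ1, one_mul,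
        one_mul, ← mul_sub]
      exact I.mul_mem_left _ (hI g)

end Fermat.Agent.RT.Glue
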