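import Fermat.Agent.RT.Glue.Algebra
import Fermat.Agent.RT.Glue.Points
import Fermat.Agent.NewformLocal.Det
import Fermat.Agent.ConductorLevel.Eigen
import Fermat.Agent.GaloisReps.Unramified

/-!
# The representation at a point of the Hecke algebra of a Hecke module
-/

set_option autoImplicit false

noncomputable section

open IsLocalRing Polynomial

namespace Fermat.Agent.RT.Glue

open GaloisReps (AbsGal FullHecke HeckeGaloisModel)

variable {O : Type} [CommRing O] [IsDomain O] [IsDiscreteValuationRing O]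
  {p : ℕ} [Fact p.Prime]
  {L : ℕ} {Δ : Type} [CommGroup Δ] {ψ : (ZMod L)ˣ →* Δ} {S : Finset ℕ}
  {abar : ℕ → ResidueField O}

/-- The algebraic closure of the fraction field. -/
abbrev KBar (O : Type) [CommRing O] [IsDomain O] : Type := AlgebraicClosure (FractionRing O)

theorem coprime_of_notMem (hS : ∀ q : ℕ, q.Prime → q ∣ L → q ∈ S) {ℓ : ℕ} (hℓ : ℓ.Prime)
    (hℓS : ℓ ∉ S) : ℓ.Coprime L :=
  hℓ.coprime_iff_not_dvd.2 fun h => hℓS (hS ℓ hℓ h)

/-- The Hecke eigenvalue of the twisted system at `ℓ ∉ S`. -/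
def sA (H : HeckeModule L ψ S abar) (hS : ∀ q : ℕ, q.Prime → q ∣ L → q ∈ S) {ℓ : ℕ}
    (hℓ : ℓ.Prime) (hℓS : ℓ ∉ S) : H.algebra :=
  diaA H (ψ (ZMod.unitOfCoprime ℓ (coprime_of_notMem hS hℓ hℓS))) ^ halfInvExp Δ * TA H hℓ hℓS

/-- A newform and a representation realising a point of the Hecke algebra. -/
structure Point (H : HeckeModule L ψ S abar) (hS : ∀ q : ℕ, q.Prime → q ∣ L → q ∈ S)
    (θK : H.algebra →+* KBar O) : Type 1 where
  M : ℕ
  [neM : NeZero M]
  g : CuspForm (CongruenceSubgroup.Gamma0 M) 2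
  isNewform : g.IsNewform
  dvd : M ∣ L ^ 2
  R : Type
  [commR : CommRing R]
  [domR : IsDomain R]
  [dvrR : IsDiscreteValuationRing R]
  [char0R : CharZero R]
  [algR : Algebra O R]
  [finR : Module.Finite O R]
  [complR : IsAdicComplete (maximalIdeal R) R]
  [finResR : Finite (ResidueField R)]
  j : R →+* KBar O
  j_injective : Function.Injective j
  j_algebraMap : j.comp (algebraMap O R) = algebraMap O (KBar O)
  p_mem : (p : R) ∈ maximalIdeal R
  ι : ℤ_[p] →+* R
  θ' : FullHecke M →+* R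
  emb : KBar O ≃+* ℂ
  emb_θ' : ∀ t, emb (j (θ' t)) = ConductorLevel.eigenChar isNewform.1 ∅ t
  value : ∀ {ℓ : ℕ} (hℓ : ℓ.Prime) (hℓS : ℓ ∉ S),
    j (θ' (HeckeDuality.heckeOp M 2 ℓ hℓ)) = θK (sA H hS hℓ hℓS)
  sq_dvd : ∀ v : ℕ, v.Prime → v ∣ L → (v ^ 2 ∣ M ↔ ∃ u : (ZMod L)ˣ,
    ((u : ZMod L).cast : ZMod (L / v)) = 1 ∧ θK (diaA H (ψ u)) ≠ 1)
  congruent : ∀ v : ℕ, v.Prime → v ∣ L → ¬ v ∣ M → IsCongruentLevel S abar (L / v)

attribute [instance] Point.neM Point.commR Point.domR Point.dvrR Point.char0R Point.algR Point.finR Point.complR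
  Point.finResR

/-- Every point is realised. -/
theorem exists_point [IsAdicComplete (maximalIdeal O) O] [Finite (ResidueField O)] [CharZero O]
    [NeZero L] (hp : (p : O) ∈ maximalIdeal O) (H : HeckeModule L ψ S abar)
    (hS : ∀ q : ℕ, q.Prime → q ∣ L → q ∈ S) (θK : H.algebra →ₐ[O] KBar O) :
    Nonempty (Point (p := p) H hS θK.toRingHom) := by
  obtain ⟨ι₀⟩ := GaloisReps.exists_padicHom O hp
  obtain ⟨e⟩ := nonempty_ringEquiv_complex O ι₀
  obtain ⟨M, g, hg, hdvd, hcoef, hsq, hcong, -⟩ := H.eigen (e.toRingHom.comp θK.toRingHom)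
  have : NeZero M := ⟨fun h => pow_ne_zero 2 (NeZero.ne L) (Nat.eq_zero_of_zero_dvd (h ▸ hdvd))⟩
  have : Module.Finite ℤ (FullHecke M) := IntegralStructure.heckeAlgebra_finite M 2 ∅
  obtain ⟨R, i1, i2, i3, i4, i5, i6, i7, i8, i9, j, θ', -, hjinj, hcomm, hθ'⟩ :=
    GaloisReps.exists_coeffExt O (e.symm.toRingHom.comp (ConductorLevel.eigenChar hg.1 ∅))
  have hpR : (p : R) ∈ maximalIdeal R := by
    rw [← map_natCast (algebraMap O R) p]
    exact map_nonunit (algebraMap O R) _ hp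
  obtain ⟨ι⟩ := GaloisReps.exists_padicHom R hpR
  have hlink : ∀ t, e (j (θ' t)) = ConductorLevel.eigenChar hg.1 ∅ t := fun t => by
    rw [← RingHom.comp_apply j θ', hθ']
    exact e.apply_symm_apply _
  refine ⟨{
    M := M
    g := g
    isNewform := hg
    dvd := hdvd
    R := R
    j := j
    j_injective := hjinj
    j_algebraMap := hcomm
    p_mem := hpR
    ι := ι
    θ' := θ'
    emb := e
    emb_θ' := hlink
    value := fun {ℓ} hℓ hℓS => e.injective ?_
    sq_dvd := fun v hv hvL => ?_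
    congruent := hcong }⟩
  · have hℓM : ¬ ℓ ∣ M := fun h =>
      hℓS (hS ℓ hℓ (hℓ.dvd_of_dvd_pow (h.trans hdvd)))
    rw [hlink, HeckeDuality.heckeOp, dif_neg hℓM, ConductorLevel.eigenChar_T hg.1 hℓ hℓM]
    exact hcoef ℓ hℓ hℓS _ (ZMod.coe_unitOfCoprime ℓ (coprime_of_notMem hS hℓ hℓS))
  · refine (hsq v hv hvL).trans (exists_congr fun u => and_congr_right fun _ => ?_)
    show e (θK (diaA H (ψ u))) ≠ 1 ↔ _
    rw [Ne, ← map_one e, e.injective.eq_iff]
    rfl

section Rep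

variable {H : HeckeModule L ψ S abar} {hS : ∀ q : ℕ, q.Prime → q ∣ L → q ∈ S}
  {θK : H.algebra →+* KBar O} (D : ∀ (M : ℕ) [NeZero M], HeckeGaloisModel M p)
  (P : Point (p := p) H hS θK)

/-- The representation over the algebraic closure. -/
def Point.rep : AbsGal →* Matrix (Fin 2) (Fin 2) (KBar O) :=
  ((P.j.mapMatrix (m := Fin 2)).toMonoidHom).comp
    ((LinearMap.toMatrixAlgEquiv ((D P.M).eigenBasis P.θ')).toMonoidHom.comp
      ((D P.M).eigenAction P.ι P.θ'))

theorem Point.rep_apply (σ : AbsGal) :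
    P.rep D σ = ((D P.M).eigenMatrix P.ι P.θ' σ).map P.j := rfl

theorem Point.trace_rep (σ : AbsGal) : (P.rep D σ).trace =
    P.j (LinearMap.trace P.R _ ((D P.M).eigenAction P.ι P.θ' σ)) := by
  rw [P.rep_apply D, LinearMap.trace_eq_matrix_trace P.R ((D P.M).eigenBasis P.θ'),
    AddMonoidHom.map_trace P.j]
  rfl

theorem Point.det_rep (σ : AbsGal) : (P.rep D σ).det =
    P.j (LinearMap.det ((D P.M).eigenAction P.ι P.θ' σ)) := by
  rw [P.rep_apply D, ← LinearMap.det_toMatrix ((D P.M).eigenBasis P.θ'),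
    ← RingHom.mapMatrix_apply, ← RingHom.map_det]
  rfl

end Rep

end Fermat.Agent.RT.Glue
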